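import Fermat.Agent.S43.Final.Top
import Fermat.Agent.MR.Glue.Lvl
import Fermat.Agent.GAL.Igusa.Numerics
import Fermat.Agent.S20

/-!
# S43 / Final / Top4 : the core contract at the NEAT levels `4 K`

All of S48 (the tower `J₁(M)[p]`) needs `4 ∣ M`.  So the hypothetical world is set up at the levels `4 K`, `K` odd squarefree:

* `occ_lvl`       : `Occ P n → Occ P (2^k n)` (MR/Glue/Lvl);
* `not_occ_four`  : nothing occurs at level `4` (S20: `dim S₂(Γ₀(4)) = 0`);
* `CoreKV4`       : THE CONTRACT: `K ≠ 1` odd squarefree prime to `p`, supported on `abc`, the eigensystem occurs at level `4 K` and at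
  no level `4 (K / r)`: contradiction;
* `all4`          : (`CoreKV4`) the eigensystem occurs at no level `4 K`;
* `coreKV_of_coreKV4 : CoreKV4 → CoreKV`.
-/

set_option autoImplicit false

namespace Fermat.Agent.S43

open AlgebraicCurve ModularCurve Fermat.Agent.S24 Fermat.Agent.GAL Fermat.Agent.DR Fermat.Agent.MR.Glue
open Fermat.Agent.DR.Gal
open WeierstrassCurve WeierstrassCurve.Affine WeierstrassCurve.Affine.Point

theorem occ_congr (P : FreyPackage) {n n' : ℕ} [NeZero n] [NeZero n'] (h : n = n') (ho : Occ P n) :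
    Occ P n' := by
  subst h
  exact ho

/-- the eigensystem survives when the level is multiplied by a power of `2`. -/
theorem occ_lvl (P : FreyPackage) {n n' : ℕ} [NeZero n] [NeZero n'] (hk : ∃ k : ℕ, n' = 2 ^ k * n)
    (ho : Occ P n) : Occ P n' := by
  obtain ⟨W, S, hW, hne⟩ := ho
  have h : n ∣ n' := by
    obtain ⟨k, rfl⟩ := hk
    exact Dvd.intro_left _ rfl
  refine ⟨W, S, hW, ?_⟩
  obtain ⟨⟨x, hx⟩, hx0⟩ := AddSubgroup.ne_bot_iff_exists_ne_zero.mp hne
  have hx0' : x ≠ 0 := fun h0 => hx0 (Subtype.ext h0)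
  have hmem : lvlKV h P.p x ∈ eigenKV n' P.p S W.apOfModel := by
    intro ℓ _ hℓ hℓn' hℓS
    have hℓn : ¬ ℓ ∣ n := fun h' => hℓn' (h'.trans h)
    rw [← lvlKV_heckeT h hℓ hℓn', hx ℓ hℓ hℓn hℓS, map_zsmul]
  intro hbot
  have h0 : lvlKV h P.p x = 0 := by
    have : lvlKV h P.p x ∈ (⊥ : AddSubgroup _) := hbot ▸ hmem
    simpa using this
  exact hx0' (lvlKV_injective h P.pp P.hp5 hk (h0.trans (_root_.map_zero _).symm))

theorem cuspCount_four : cuspCount 4 = 3 := by
  have hd : Nat.divisors 4 = {1, 2, 4} := by decide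
  rw [cuspCount, hd]
  decide

theorem genusFormula_four : genusFormula 4 = 0 := by
  unfold genusFormula
  rw [Fermat.Agent.GAL.Igusa.dedekindPsi_four, Fermat.Agent.GAL.Igusa.nuTwo_eq_zero (Or.inl dvd_rfl),
    Fermat.Agent.GAL.Igusa.nuThree_eq_zero (Or.inl dvd_rfl), cuspCount_four]
  norm_num

/-- nothing occurs at level `4`. -/
theorem not_occ_four (P : FreyPackage) : ¬ Occ P 4 := by
  intro ho
  obtain ⟨f, W, 𝔪, hf, -⟩ := modularRep_of_occ P ho
  have h1 := Fermat.Agent.S20.result 4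
  rw [genusFormula_four] at h1
  have h2 : Module.finrank ℂ (CuspForm (CongruenceSubgroup.Gamma0 4) 2) = 0 := by exact_mod_cast h1
  have : Module.Finite ℂ (CuspForm (CongruenceSubgroup.Gamma0 4) 2) := Fermat.Agent.ES.finite_cuspForm 4
  have h3 := Module.finrank_zero_iff.1 h2
  exact hf.ne_zero (Subsingleton.elim _ _)

/-- **THE CORE CONTRACT AT NEAT LEVELS** (routes TWX / MPD). -/
def CoreKV4 : Prop :=
  ∀ (P : FreyPackage) (K : ℕ) [NeZero K], Odd K → Squarefree K → K ≠ 1 →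
    (∀ r : ℕ, r.Prime → r ∣ K → (r : ℤ) ∣ P.a * P.b * P.c) → ¬ P.p ∣ K →
    GaloisRepIsIrreducible (K := AlgebraicClosure ℚ) ℚ P.freyCurve P.p →
    Occ P (4 * K) →
    (∀ (r M : ℕ) [NeZero M], r.Prime → K = M * r → ¬ Occ P (4 * M)) → False

/-- (`CoreKV4`) the eigensystem occurs at no level `4 K`. -/
theorem all4 (h : CoreKV4) (P : FreyPackage)
    (hirr : GaloisRepIsIrreducible (K := AlgebraicClosure ℚ) ℚ P.freyCurve P.p) :
    ∀ (K : ℕ) [NeZero K], Squarefree K → ¬ 2 ∣ K →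
      (∀ q : ℕ, q.Prime → q ∣ K → (q : ℤ) ∣ P.a * P.b * P.c) → ¬ P.p ∣ K → ¬ Occ P (4 * K) := by
  intro K
  induction K using Nat.strong_induction_on with
  | _ K ih =>
    intro _ hsq h2 hsupp hp ho
    by_cases hK1 : K = 1
    · subst hK1
      exact not_occ_four P (occ_congr P (by norm_num) ho)
    · refine h P K (Nat.odd_iff.2 (by omega)) hsq hK1 hsupp hp hirr ho ?_
      intro r M _ hr hKM hoM
      have hMK : M ∣ K := ⟨r, hKM⟩
      have hlt : M < K := by
        have hM0 : 0 < M := Nat.pos_of_ne_zero (NeZero.ne M)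
        rw [hKM]
        exact lt_mul_of_one_lt_right hM0 hr.one_lt
      exact ih M hlt (hsq.squarefree_of_dvd hMK) (fun h' => h2 (h'.trans hMK))
        (fun q hq hqM => hsupp q hq (hqM.trans hMK)) (fun h' => hp (h'.trans hMK)) hoM

/-- **The contract of `Final/Top.lean` from the contract at neat levels.** -/
theorem coreKV_of_coreKV4 (h : CoreKV4) : CoreKV := by
  intro P N₀ _ hcond hp hirr ho _ _
  by_cases h2 : 2 ∣ N₀
  · obtain ⟨K, hK⟩ := h2
    have hK0 : NeZero K := ⟨by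
      rintro rfl
      exact (NeZero.ne N₀) (by rw [hK, Nat.mul_zero])⟩
    have hKN : K ∣ N₀ := ⟨2, by rw [hK, mul_comm]⟩
    have h2K : ¬ 2 ∣ K := by
      intro h'
      obtain ⟨c, rfl⟩ := h'
      have := hcond.not_four_dvd
      exact this ⟨c, by rw [hK]; ring⟩
    refine all4 h P hirr K (hcond.squarefree.squarefree_of_dvd hKN) h2K
      (fun q hq hqK => hcond.support q hq (hqK.trans hKN)) (fun h' => hp (h'.trans hKN)) ?_
    exact occ_lvl P ⟨1, by rw [hK]; ring⟩ ho
  · refine all4 h P hirr N₀ hcond.squarefree h2 hcond.support hp ?_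
    exact occ_lvl P ⟨2, by ring⟩ ho

/-- **S43 from the core contract at neat levels.** -/
theorem s43_of_coreKV4 (h : CoreKV4) (P : FreyPackage) {N q : ℕ} (hcond : P.IsConductorLevel N)
    (hq : q.Prime) (hq2 : q ≠ 2) (hqp : q ≠ P.p) (hqN : q ∣ N)
    (hirr : GaloisRepIsIrreducible (K := AlgebraicClosure ℚ) ℚ P.freyCurve P.p)
    (hmod : P.ModularRepOfLevel N) (hunr : P.GaloisRepUnramifiedAt q) :
    ∃ M : ℕ, M ∣ N ∧ ¬ q ∣ M ∧ P.ModularRepOfLevel M :=
  s43_of_core (core_of_coreKV (coreKV_of_coreKV4 h)) P hcond hq hq2 hqp hqN hirr hmod hunr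

end Fermat.Agent.S43
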