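import Fermat.Agent.S43.Final.Core4
import Fermat.Agent.S43.Top0.Geom
import Fermat.Agent.S43.Top0.Main
import Fermat.Agent.S43.Geo.Main

/-!
# S43 / Final / Alg : `algContract : AlgContract`  (the last link)

`Geo.geoC` (all the geometric exports) ⟹ `Top0.Geom.levelData_of_geo` ⟹ `Top0.algOut_of_levelData` ⟹ `AlgContract`.
-/

set_option autoImplicit false

namespace Fermat.Agent.S43

open AlgebraicCurve ModularCurve Fermat.Agent.S24 Fermat.Agent.GAL Fermat.Agent.DR Fermat.Agent.MR.Glue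
open Fermat.Agent.S43.BigImg
open WeierstrassCurve WeierstrassCurve.Affine WeierstrassCurve.Affine.Point

/-- **THE CONTRACT OF GEO + BRIDGE + SELP**, unconditional. -/
theorem algContract : AlgContract := by
  intro P K _ W S₀ hw t bad hinj hbad _ _
  classical
  obtain ⟨B, hB⟩ := frobMod_Ep P W hw.model
  have hpr : ∀ j, (bad j).Prime := fun j => ((hbad _).2 ⟨j, rfl⟩).1
  have hdv : ∀ j, bad j ∣ K := fun j => ((hbad _).2 ⟨j, rfl⟩).2
  have himg : Finset.univ.image bad = K.primeFactors := by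
    ext q
    rw [Finset.mem_image, Nat.mem_primeFactors]
    constructor
    · rintro ⟨j, -, rfl⟩
      exact ⟨hpr j, hdv j, NeZero.ne K⟩
    · rintro ⟨h1, h2, -⟩
      obtain ⟨j, hj⟩ := (hbad q).1 ⟨h1, h2⟩
      exact ⟨j, Finset.mem_univ _, hj⟩
  set S : Finset ℕ := S₀ ∪ B ∪ K.primeFactors ∪ {2, P.p} with hS
  have h2S : 2 ∈ S := by simp [hS]
  have hpS : P.p ∈ S := by simp [hS]
  have hKS : K.primeFactors ⊆ S := fun q hq => by
    rw [hS]
    exact Finset.mem_union_left _ (Finset.mem_union_right _ hq)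
  have hBS : B ⊆ S := fun q hq => by
    rw [hS]
    exact Finset.mem_union_left _ (Finset.mem_union_left _ (Finset.mem_union_right _ hq))
  have hS₀S : S₀ ⊆ S := fun q hq => by
    rw [hS]
    exact Finset.mem_union_left _ (Finset.mem_union_left _ (Finset.mem_union_left _ hq))
  have hbS : ∀ j, bad j ∈ S := fun j =>
    hKS (Nat.mem_primeFactors.2 ⟨hpr j, hdv j, NeZero.ne K⟩)
  have hne2 : ∀ j, bad j ≠ 2 := fun j h2 =>
    (Nat.not_even_iff_odd.2 hw.odd) (even_iff_two_dvd.2 (h2 ▸ hdv j))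
  have hnep : ∀ j, bad j ≠ P.p := fun j hp => hw.pK (hp ▸ hdv j)
  have hocc : eigenKV (4 * K) P.p S W.apOfModel ≠ ⊥ := eigenKV_ne_bot_mono _ hS₀S _ hw.occ
  have hlow : ∀ (r M : ℕ) [NeZero M], r.Prime → K = M * r → ¬ Occ P (4 * M) := by
    intro r M _ hr hKM ⟨W', S', hW', hne⟩
    exact hne (hw.low r M hr hKM W' S' hW')
  refine ⟨S, h2S, hpS, hbS, fun n₀ => ⟨Nat.card (KV Kbar (FN (4 * K)) P.p) ^ (3 ^ n₀), ?_⟩⟩
  intro n qv hTW
  obtain ⟨N, _, eps, D⟩ := Top0.Geom.levelData_of_geo Geo.geoC P W hw.model hw.irr K hw.odd hw.sqf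
    hw.pK S h2S hpS hKS hB hBS hocc hlow qv hTW
  rw [← himg] at D
  exact Top0.algOut_of_levelData P hw.irr W hw.model bad hpr hne2 hnep S h2S hpS eps qv hTW _ D

end Fermat.Agent.S43
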