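import Fermat.Agent.S43.Final.Top4
import Fermat.Agent.S43.Core.Frey
import Fermat.Agent.S43.LocA.MazConc
import Fermat.Agent.S43.GA.Main

/-!
# S43 / Final / Core4 : `CoreKV4` from the contract `AlgContract` (what GEO + BRIDGE + SELP deliver)

* `World P K W S₀`  : the hypothetical world at the level `4 K`;
* `AlgContract`     : in the hypothetical world every Taylor-Wiles set carries a `Core.AlgOut`, with a control constant `d`
                      depending only on the number `n₀` of Taylor-Wiles primes;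
* `coreKV4_of_alg : AlgContract → CoreKV4`  (`Core.false_of_forall_algOut` + Mazur's principle `LocA.scalarAt_of_ga` + `GA.frob`);
* `s43_of_alg`      : the exact statement of S43 from `AlgContract`.
-/

set_option autoImplicit false

namespace Fermat.Agent.S43

open AlgebraicCurve ModularCurve Fermat.Agent.S24 Fermat.Agent.GAL Fermat.Agent.DR Fermat.Agent.MR.Glue
open Fermat.Agent.S43.BigImg
open WeierstrassCurve WeierstrassCurve.Affine WeierstrassCurve.Affine.Point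

theorem eigenKV_ne_bot_congr {n n' : ℕ} [NeZero n] [NeZero n'] (h : n = n') (p : ℕ) (S : Finset ℕ)
    (a : ℕ → ℤ) (ho : eigenKV n p S a ≠ ⊥) : eigenKV n' p S a ≠ ⊥ := by
  subst h
  exact ho

/-- enlarging the exceptional set. -/
theorem eigenKV_ne_bot_mono {n : ℕ} [NeZero n] (p : ℕ) {S S' : Finset ℕ} (h : S ⊆ S')
    (a : ℕ → ℤ) (ho : eigenKV n p S a ≠ ⊥) : eigenKV n p S' a ≠ ⊥ := by
  obtain ⟨⟨x, hx⟩, hx0⟩ := AddSubgroup.ne_bot_iff_exists_ne_zero.mp ho
  have hx0' : x ≠ 0 := fun h0 => hx0 (Subtype.ext h0)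
  intro hbot
  have hmem : x ∈ eigenKV n p S' a := fun ℓ _ hℓ hℓn hℓS => hx ℓ hℓ hℓn (fun h' => hℓS (h h'))
  rw [hbot] at hmem
  exact hx0' (by simpa using hmem)

/-- **The hypothetical world** at the level `4 K`. -/
structure World (P : FreyPackage) (K : ℕ) [NeZero K] (W : WeierstrassCurve ℤ) (S₀ : Finset ℕ) : Prop where
  odd : Odd K
  sqf : Squarefree K
  ne_one : K ≠ 1
  supp : ∀ r : ℕ, r.Prime → r ∣ K → (r : ℤ) ∣ P.a * P.b * P.c
  pK : ¬ P.p ∣ K
  irr : GaloisRepIsIrreducible (K := AlgebraicClosure ℚ) ℚ P.freyCurve P.p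
  model : W.IsIntegralModelOf P.freyCurve
  occ : eigenKV (4 * K) P.p S₀ W.apOfModel ≠ ⊥
  low : ∀ (r M : ℕ) [NeZero M], r.Prime → K = M * r → ∀ (W' : WeierstrassCurve ℤ) (S : Finset ℕ),
    W'.IsIntegralModelOf P.freyCurve → eigenKV (4 * M) P.p S W'.apOfModel = ⊥

/-- **THE CONTRACT OF GEO + BRIDGE + SELP.** -/
def AlgContract : Prop :=
  ∀ (P : FreyPackage) (K : ℕ) [NeZero K] (W : WeierstrassCurve ℤ) (S₀ : Finset ℕ), World P K W S₀ →
    ∀ (t : ℕ) (bad : Fin t → ℕ), Function.Injective bad →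
      (∀ q : ℕ, (q.Prime ∧ q ∣ K) ↔ ∃ j, bad j = q) →
      (∀ j, GWS.ScalarAt (S56.T.matRep (rho P)) (bad j)) → (∀ j, P.p ∣ bad j - 1) →
      ∃ S : Finset ℕ, 2 ∈ S ∧ P.p ∈ S ∧ (∀ j, bad j ∈ S) ∧
        ∀ n₀ : ℕ, ∃ d : ℕ, ∀ (n : ℕ) (qv : Fin n₀ → ℕ), Core.IsTWSet P S n qv →
          Nonempty (Core.AlgOut P.p (S56.T.matRep (rho P)) (Core.ramSet P bad qv) bad n₀
            (P.p ^ (n + 1)) d)

/-- Mazur's principle in the hypothetical world. -/
theorem World.mazur {P : FreyPackage} {K : ℕ} [NeZero K] {W : WeierstrassCurve ℤ} {S₀ : Finset ℕ}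
    (h : World P K W S₀) {q : ℕ} (hq : q.Prime) (hqK : q ∣ K) :
    GWS.ScalarAt (S56.T.matRep (rho P)) q ∧ P.p ∣ q - 1 := by
  obtain ⟨M, hM⟩ := hqK
  have hKM : K = M * q := by rw [hM, mul_comm]
  have hM0 : NeZero M := ⟨by
    rintro rfl
    exact (NeZero.ne K) (by rw [hKM, Nat.zero_mul])⟩
  have hq0 : NeZero q := ⟨hq.ne_zero⟩
  have hq2 : q ≠ 2 := by
    rintro rfl
    exact (Nat.not_even_iff_odd.2 h.odd) (even_iff_two_dvd.2 ⟨M, hM⟩)
  have hqp : q ≠ P.p := by
    rintro rfl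
    exact h.pK ⟨M, hM⟩
  have hqM : ¬ q ∣ 4 * M := by
    intro hd
    rcases (hq.dvd_mul).1 hd with h4 | hqM
    · have : q ∣ 2 ^ 2 := by simpa using h4
      exact hq2 ((Nat.prime_dvd_prime_iff_eq hq Nat.prime_two).1 (hq.dvd_of_dvd_pow this))
    · obtain ⟨c, rfl⟩ := hqM
      have hsq := h.sqf
      rw [hKM] at hsq
      have : q * q ∣ q * c * q := ⟨c, by ring⟩
      exact hq.one_lt.ne' (Nat.isUnit_iff.1 (hsq q this))
  have hocc : eigenKV (4 * M * q) P.p (insert P.p S₀) W.apOfModel ≠ ⊥ :=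
    eigenKV_ne_bot_congr (by rw [hKM, mul_assoc]) _ _ _
      (eigenKV_ne_bot_mono _ (Finset.subset_insert _ _) _ h.occ)
  have hH := h.low q M hq hKM W (insert q (insert P.p S₀)) h.model
  exact ⟨LocA.scalarAt_of_ga GA.frob P h.irr (4 * M) q hq hqM (Dvd.intro _ rfl) hq2 hqp W h.model
      (insert P.p S₀) (Finset.mem_insert_self _ _) hocc hH,
    (LocA.maz_conc GA.frob P h.irr (4 * M) q hq hqM (Dvd.intro _ rfl) hq2 hqp W h.model
      (insert P.p S₀) (Finset.mem_insert_self _ _) hocc hH).1⟩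

/-- **`CoreKV4` from the contract.** -/
theorem coreKV4_of_alg (h : AlgContract) : CoreKV4 := by
  intro P K _ hodd hsq hK1 hsupp hpK hirr ho hlow
  obtain ⟨W, S₀, hW, hocc⟩ := ho
  have hw : World P K W S₀ :=
    { odd := hodd
      sqf := hsq
      ne_one := hK1
      supp := hsupp
      pK := hpK
      irr := hirr
      model := hW
      occ := hocc
      low := by
        intro r M _ hr hKM W' S hW'
        by_contra hne
        exact hlow r M hr hKM ⟨W', S, hW', hne⟩ }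
  -- enumeration of the primes of `K`
  let e := K.primeFactors.equivFin
  let bad : Fin K.primeFactors.card → ℕ := fun j => ((e.symm j : K.primeFactors) : ℕ)
  have hinj : Function.Injective bad := fun i j hij => e.symm.injective (Subtype.ext hij)
  have hmem : ∀ j, bad j ∈ K.primeFactors := fun j => (e.symm j).2
  have hbad : ∀ q : ℕ, (q.Prime ∧ q ∣ K) ↔ ∃ j, bad j = q := by
    intro q
    constructor
    · rintro ⟨hq, hqK⟩
      have hq' : q ∈ K.primeFactors := Nat.mem_primeFactors.2 ⟨hq, hqK, NeZero.ne K⟩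
      exact ⟨e ⟨q, hq'⟩, by simp [bad]⟩
    · rintro ⟨j, rfl⟩
      exact ⟨(Nat.mem_primeFactors.1 (hmem j)).1, (Nat.mem_primeFactors.1 (hmem j)).2.1⟩
  have hpr : ∀ j, (bad j).Prime := fun j => ((hbad _).2 ⟨j, rfl⟩).1
  have hdv : ∀ j, bad j ∣ K := fun j => ((hbad _).2 ⟨j, rfl⟩).2
  have hscal : ∀ j, GWS.ScalarAt (S56.T.matRep (rho P)) (bad j) := fun j => (hw.mazur (hpr j) (hdv j)).1
  obtain ⟨S, h2S, hpS, hbS, H⟩ := h P K W S₀ hw _ bad hinj hbad hscal
    (fun j => (hw.mazur (hpr j) (hdv j)).2)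
  have ht : 0 < K.primeFactors.card := by
    rw [Finset.card_pos]
    exact Nat.nonempty_primeFactors.2 (by
      have := Nat.pos_of_ne_zero (NeZero.ne K)
      omega)
  refine Core.false_of_forall_algOut P hirr ht bad hinj hpr ?_ ?_ hscal S h2S hpS hbS H
  · intro j h2
    exact (Nat.not_even_iff_odd.2 hodd) (even_iff_two_dvd.2 (h2 ▸ hdv j))
  · intro j hp
    exact hpK (hp ▸ hdv j)

/-- **S43 from the contract.** -/
theorem s43_of_alg (h : AlgContract) (P : FreyPackage) {N q : ℕ} (hcond : P.IsConductorLevel N)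
    (hq : q.Prime) (hq2 : q ≠ 2) (hqp : q ≠ P.p) (hqN : q ∣ N)
    (hirr : GaloisRepIsIrreducible (K := AlgebraicClosure ℚ) ℚ P.freyCurve P.p)
    (hmod : P.ModularRepOfLevel N) (hunr : P.GaloisRepUnramifiedAt q) :
    ∃ M : ℕ, M ∣ N ∧ ¬ q ∣ M ∧ P.ModularRepOfLevel M :=
  s43_of_coreKV4 (coreKV4_of_alg h) P hcond hq hq2 hqp hqN hirr hmod hunr

end Fermat.Agent.S43
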