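import Fermat.Statements.S43
import Fermat.Agent.S44
import Fermat.Agent.MR.Glue.Front

/-!
# S43 / Final / Top : S43 from the core contract `CoreKV`

* `Occ P n` : the system of eigenvalues of `E[p]` occurs in `V_p(F(n)) = J₀(n)[p]`
  (`∃ W S, eigenKV n p S a(W) ≠ ⊥`); `occ_iff : P.ModularRepOfLevel n ↔ Occ P n` (MR/Glue, both directions on main);
* `Core` : a conductor level `N₀`, prime to `p`, divisible by an odd prime, at which `ρ̄` is modular is NOT minimal;
* `CoreKV` : the same statement in terms of `Occ` (this is what the blocks of TWX / MPD have to prove);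
* `lower` : (S44 + `Core`) `ρ̄` modular of a conductor level `N` => modular of a level `M ∣ N` without odd prime factor;
* `s43_of_core` : the exact statement of S43.
-/

set_option autoImplicit false

namespace Fermat.Agent.S43

open AlgebraicCurve ModularCurve Fermat.Agent.S24 Fermat.Agent.GAL Fermat.Agent.DR Fermat.Agent.MR.Glue
open WeierstrassCurve WeierstrassCurve.Affine WeierstrassCurve.Affine.Point

/-- the system of eigenvalues of `E[p]` occurs in `J₀(n)[p]`. -/
def Occ (P : FreyPackage) (n : ℕ) [NeZero n] : Prop :=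
  ∃ (W : WeierstrassCurve ℤ) (S : Finset ℕ), W.IsIntegralModelOf P.freyCurve ∧
    eigenKV n P.p S W.apOfModel ≠ ⊥

theorem occ_of_modularRep (P : FreyPackage) {n : ℕ} [NeZero n] (h : P.ModularRepOfLevel n) :
    Occ P n := by
  have : NeZero P.p := ⟨P.pp.ne_zero⟩
  exact exists_eigenKV_of_modularRep P h

theorem modularRep_of_occ (P : FreyPackage) {n : ℕ} [NeZero n] (h : Occ P n) :
    P.ModularRepOfLevel n := by
  have : NeZero P.p := ⟨P.pp.ne_zero⟩
  obtain ⟨W, S, hW, hne⟩ := h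
  obtain ⟨g, 𝔪', hg, h𝔪', hp, hcong⟩ := exists_eigenform_of_eigenKV S W.apOfModel hne
  exact modularRep_of_congr P W hW S g 𝔪' hg h𝔪' hp hcong

theorem occ_iff (P : FreyPackage) {n : ℕ} [NeZero n] : P.ModularRepOfLevel n ↔ Occ P n :=
  ⟨occ_of_modularRep P, modularRep_of_occ P⟩

/-- **The core of Ribet's theorem** (form with eigenforms): a level divisible by an odd prime is not minimal. -/
def Core : Prop :=
  ∀ (P : FreyPackage) (N₀ : ℕ), P.IsConductorLevel N₀ → ¬ P.p ∣ N₀ →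
    GaloisRepIsIrreducible (K := AlgebraicClosure ℚ) ℚ P.freyCurve P.p →
    P.ModularRepOfLevel N₀ → (∃ q : ℕ, q.Prime ∧ q ≠ 2 ∧ q ∣ N₀) →
    ∃ M : ℕ, M ∣ N₀ ∧ M ≠ N₀ ∧ P.ModularRepOfLevel M

/-- **The core of Ribet's theorem** (form with `J₀(n)[p]`).  THE CONTRACT OF THE ROUTES TWX / MPD:
in the "hypothetical world" (`hmin` : the eigensystem occurs at no level `N₀ / r`) there is a contradiction. -/
def CoreKV : Prop :=
  ∀ (P : FreyPackage) (N₀ : ℕ) [NeZero N₀], P.IsConductorLevel N₀ → ¬ P.p ∣ N₀ →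
    GaloisRepIsIrreducible (K := AlgebraicClosure ℚ) ℚ P.freyCurve P.p →
    Occ P N₀ → (∃ q : ℕ, q.Prime ∧ q ≠ 2 ∧ q ∣ N₀) →
    (∀ (r M : ℕ) [NeZero M], r.Prime → N₀ = M * r → ¬ Occ P M) → False

theorem core_of_coreKV (h : CoreKV) : Core := by
  intro P N₀ hcond hp hirr hmod hq
  have hN : NeZero N₀ := ⟨hcond.pos.ne'⟩
  by_contra hcon
  push Not at hcon
  refine h P N₀ hcond hp hirr (occ_of_modularRep P hmod) hq ?_
  intro r M _ hr hN₀ hocc
  have h1 : M ∣ N₀ := ⟨r, hN₀⟩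
  have h2 : M ≠ N₀ := by
    intro h3
    have h4 : M * 1 = M * r := by rw [mul_one, ← hN₀, h3]
    have h5 := Nat.eq_of_mul_eq_mul_left (Nat.pos_of_ne_zero (NeZero.ne M)) h4
    exact hr.one_lt.ne h5
  exact hcon M h1 h2 (modularRep_of_occ P hocc)

/-- S44 + `Core` : all odd primes can be removed from a conductor level. -/
theorem lower (h : Core) (P : FreyPackage)
    (hirr : GaloisRepIsIrreducible (K := AlgebraicClosure ℚ) ℚ P.freyCurve P.p) :
    ∀ N : ℕ, P.IsConductorLevel N → P.ModularRepOfLevel N →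
      ∃ M : ℕ, M ∣ N ∧ P.ModularRepOfLevel M ∧ ∀ q : ℕ, q.Prime → q ∣ M → q = 2 := by
  intro N
  induction N using Nat.strong_induction_on with
  | _ N ih =>
    intro hcond hmod
    by_cases hpN : P.p ∣ N
    · obtain ⟨M, hMN, hpM, hM⟩ := Fermat.Agent.S44.result P hcond hpN hirr hmod
      have hM0 : 0 < M := Nat.pos_of_dvd_of_pos hMN hcond.pos
      have hlt : M < N := lt_of_le_of_ne (Nat.le_of_dvd hcond.pos hMN) (by
        rintro rfl
        exact hpM hpN)
      obtain ⟨M', h1, h2, h3⟩ := ih M hlt (hcond.of_dvd hMN hM0) hM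
      exact ⟨M', h1.trans hMN, h2, h3⟩
    · by_cases hodd : ∃ q : ℕ, q.Prime ∧ q ≠ 2 ∧ q ∣ N
      · obtain ⟨M, hMN, hne, hM⟩ := h P N hcond hpN hirr hmod hodd
        have hM0 : 0 < M := Nat.pos_of_dvd_of_pos hMN hcond.pos
        have hlt : M < N := lt_of_le_of_ne (Nat.le_of_dvd hcond.pos hMN) hne
        obtain ⟨M', h1, h2, h3⟩ := ih M hlt (hcond.of_dvd hMN hM0) hM
        exact ⟨M', h1.trans hMN, h2, h3⟩
      · refine ⟨N, dvd_rfl, hmod, ?_⟩
        intro q hq hqN
        by_contra h2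
        exact hodd ⟨q, hq, h2, hqN⟩

/-- **S43 from the core.** -/
theorem s43_of_core (h : Core) (P : FreyPackage) {N q : ℕ} (hcond : P.IsConductorLevel N)
    (_hq : q.Prime) (hq2 : q ≠ 2) (_hqp : q ≠ P.p) (_hqN : q ∣ N)
    (hirr : GaloisRepIsIrreducible (K := AlgebraicClosure ℚ) ℚ P.freyCurve P.p)
    (hmod : P.ModularRepOfLevel N) (_hunr : P.GaloisRepUnramifiedAt q) :
    ∃ M : ℕ, M ∣ N ∧ ¬ q ∣ M ∧ P.ModularRepOfLevel M := by
  obtain ⟨M, h1, h2, h3⟩ := lower h P hirr N hcond hmod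
  exact ⟨M, h1, fun hqM => hq2 (h3 q _hq hqM), h2⟩

end Fermat.Agent.S43
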